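import Fermat.Agent.S13.H129.AtTwoFrey

/-!
# S13 / T7, part 1: the valuation of rational numbers at a place over `2`

`K` is a field of characteristic zero and `A` a valuation subring of `K` in which `2` is a
nonunit.  Then every nonzero rational number has valuation `v 2 ^ c` for some `c : ℤ`, and an
`A`-integral rational number is congruent to `0` or to `1` modulo the maximal ideal.
-/

set_option autoImplicit false

namespace Fermat.Agent.S13.H187

open Fermat.Agent.S13.H129

variable {K : Type*} [Field K] [CharZero K] {A : ValuationSubring K}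

omit [CharZero K] in
lemma val_two_lt_one (hA : A.LiesOverPrime 2) : A.valuation (2 : K) < 1 := by
  have := A.mem_nonunits_iff.1 hA
  simpa using this

lemma val_two_ne_zero' : A.valuation (2 : K) ≠ 0 :=
  (Valuation.ne_zero_iff _).mpr two_ne_zero

lemma val_two_pos : 0 < A.valuation (2 : K) :=
  zero_lt_iff.mpr val_two_ne_zero'

omit [CharZero K] in
/-- odd integers are units. -/
lemma val_int_of_odd (hA : A.LiesOverPrime 2) {n : ℤ} (hn : Odd n) :
    A.valuation (n : K) = 1 := by
  apply valuation_intCast_eq_one hA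
  obtain ⟨k, hk⟩ := hn
  exact ⟨1, -k, by rw [hk]; push_cast; ring⟩

omit [CharZero K] in
/-- even integers are nonunits. -/
lemma val_int_of_even (hA : A.LiesOverPrime 2) {n : ℤ} (hn : Even n) :
    A.valuation (n : K) < 1 := by
  apply valuation_intCast_lt_one hA
  obtain ⟨k, hk⟩ := hn
  exact ⟨k, by rw [hk]; push_cast; ring⟩

omit [CharZero K] in
/-- a nonzero natural number has valuation a natural power of `v 2`. -/
lemma val_nat_eq_pow (hA : A.LiesOverPrime 2) {n : ℕ} (hn : n ≠ 0) :
    ∃ i : ℕ, A.valuation (n : K) = A.valuation (2 : K) ^ i := by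
  obtain ⟨k, m, hm, rfl⟩ := Nat.exists_eq_two_pow_mul_odd hn
  refine ⟨k, ?_⟩
  have h1 : A.valuation ((m : ℤ) : K) = 1 := val_int_of_odd hA (by exact_mod_cast hm)
  push_cast at h1 ⊢
  rw [map_mul, map_pow, h1, mul_one]

omit [CharZero K] in
/-- a nonzero integer has valuation a natural power of `v 2`. -/
lemma val_int_eq_pow (hA : A.LiesOverPrime 2) {n : ℤ} (hn : n ≠ 0) :
    ∃ i : ℕ, A.valuation (n : K) = A.valuation (2 : K) ^ i := by
  obtain ⟨i, hi⟩ := val_nat_eq_pow (K := K) hA (Int.natAbs_ne_zero.mpr hn)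
  refine ⟨i, ?_⟩
  rw [← hi]
  rcases Int.natAbs_eq n with h | h
  · conv_lhs => rw [h]
    rw [Int.cast_natCast]
  · conv_lhs => rw [h]
    rw [Int.cast_neg, Valuation.map_neg, Int.cast_natCast]

/-- a nonzero rational number has valuation an integral power of `v 2`. -/
lemma val_rat_eq_zpow (hA : A.LiesOverPrime 2) {r : ℚ} (hr : r ≠ 0) :
    ∃ c : ℤ, A.valuation ((r : ℚ) : K) = A.valuation (2 : K) ^ c := by
  obtain ⟨i, hi⟩ := val_int_eq_pow (K := K) hA (Rat.num_ne_zero.mpr hr)
  obtain ⟨j, hj⟩ := val_nat_eq_pow (K := K) hA r.den_ne_zero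
  refine ⟨(i : ℤ) - j, ?_⟩
  rw [Rat.cast_def, map_div₀, hi, hj, zpow_sub₀ val_two_ne_zero', zpow_natCast, zpow_natCast]

/-- the denominator of an integral rational number is odd. -/
lemma odd_den_of_val_le_one (hA : A.LiesOverPrime 2) {r : ℚ}
    (hr : A.valuation ((r : ℚ) : K) ≤ 1) : Odd r.den := by
  rcases Nat.even_or_odd r.den with he | ho
  · exfalso
    have hd : A.valuation ((r.den : ℤ) : K) < 1 := val_int_of_even hA (by exact_mod_cast he)
    have hn : A.valuation ((r.num : ℤ) : K) = 1 := by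
      apply val_int_of_odd hA
      rcases Int.even_or_odd r.num with hne | hno
      · exfalso
        have h2 : 2 ∣ r.num.natAbs := by
          have := hne.two_dvd
          exact Int.natCast_dvd.mp (by simpa using this)
        have h3 : 2 ∣ r.den := he.two_dvd
        have := Nat.dvd_gcd h2 h3
        rw [r.reduced.gcd_eq_one] at this
        omega
      · exact hno
    have hd0 : A.valuation ((r.den : ℤ) : K) ≠ 0 := by
      rw [Valuation.ne_zero_iff]
      exact_mod_cast r.den_ne_zero
    have hcast : ((r : ℚ) : K) = ((r.num : ℤ) : K) / ((r.den : ℤ) : K) := by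
      rw [Rat.cast_def]; push_cast; rfl
    rw [hcast, map_div₀, hn, one_div] at hr
    have : 1 < (A.valuation ((r.den : ℤ) : K))⁻¹ :=
      (one_lt_inv₀ (zero_lt_iff.mpr hd0)).mpr hd
    exact absurd hr (not_le.mpr this)
  · exact ho

/-- an integral rational number is congruent to `0` or to `1`. -/
lemma val_rat_lt_or (hA : A.LiesOverPrime 2) {r : ℚ}
    (hr : A.valuation ((r : ℚ) : K) ≤ 1) :
    A.valuation ((r : ℚ) : K) < 1 ∨ A.valuation (((r : ℚ) : K) - 1) < 1 := by
  have hodd := odd_den_of_val_le_one hA hr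
  have hd : A.valuation ((r.den : ℤ) : K) = 1 := val_int_of_odd hA (by exact_mod_cast hodd)
  have hcast : ((r : ℚ) : K) = ((r.num : ℤ) : K) / ((r.den : ℤ) : K) := by
    rw [Rat.cast_def]; push_cast; rfl
  have hd0 : ((r.den : ℤ) : K) ≠ 0 := by exact_mod_cast r.den_ne_zero
  rcases Int.even_or_odd r.num with hne | hno
  · left
    rw [hcast, map_div₀, hd, div_one]
    exact val_int_of_even hA hne
  · right
    have e : ((r : ℚ) : K) - 1 = ((r.num - r.den : ℤ) : K) / ((r.den : ℤ) : K) := by
      rw [hcast]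
      push_cast
      field_simp
    rw [e, map_div₀, hd, div_one]
    apply val_int_of_even hA
    have : Odd (r.den : ℤ) := by exact_mod_cast hodd
    exact hno.sub_odd this

/-- two integral rational numbers are congruent, or their sum is congruent to `1`. -/
lemma val_rat_sub_or (hA : A.LiesOverPrime 2) {r s : ℚ}
    (hr : A.valuation ((r : ℚ) : K) ≤ 1) (hs : A.valuation ((s : ℚ) : K) ≤ 1) :
    A.valuation (((r : ℚ) : K) - ((s : ℚ) : K)) < 1 ∨
      A.valuation (((r : ℚ) : K) + ((s : ℚ) : K) - 1) < 1 := by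
  have h2 := val_two_lt_one hA
  rcases val_rat_lt_or hA hr with h1 | h1 <;> rcases val_rat_lt_or hA hs with h3 | h3
  · left
    exact lt_of_le_of_lt (Valuation.map_sub _ _ _) (max_lt h1 h3)
  · right
    have e : ((r : ℚ) : K) + ((s : ℚ) : K) - 1 = ((r : ℚ) : K) + (((s : ℚ) : K) - 1) := by ring
    rw [e]
    exact lt_of_le_of_lt (Valuation.map_add _ _ _) (max_lt h1 h3)
  · right
    have e : ((r : ℚ) : K) + ((s : ℚ) : K) - 1 = (((r : ℚ) : K) - 1) + ((s : ℚ) : K) := by ring
    rw [e]
    exact lt_of_le_of_lt (Valuation.map_add _ _ _) (max_lt h1 h3)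
  · left
    have e : ((r : ℚ) : K) - ((s : ℚ) : K) = (((r : ℚ) : K) - 1) - (((s : ℚ) : K) - 1) := by ring
    rw [e]
    exact lt_of_le_of_lt (Valuation.map_sub _ _ _) (max_lt h1 h3)

/-- an integral rational unit is congruent to `1`. -/
lemma val_rat_sub_one_of_eq_one (hA : A.LiesOverPrime 2) {r : ℚ}
    (hr : A.valuation ((r : ℚ) : K) = 1) : A.valuation (((r : ℚ) : K) - 1) < 1 := by
  rcases val_rat_lt_or hA hr.le with h | h
  · exact absurd hr h.ne
  · exact h

end Fermat.Agent.S13.H187
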