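import Fermat.Agent.S13.H187.RatVal
import Fermat.Agent.S13.Comp2Torsion
import Fermat.Agent.S13.Skel
import Fermat.Agent.S54.FrobExists
import Fermat.Agent.S54.FrobLift

/-!
# S13 / T7: the Frey curve has no nonzero Galois-fixed point of order `p`

Fix a valuation subring `A` of `ℚ̄` over `2` and let `Q = (x, y)` be a Galois-fixed point of
order `p`; its coordinates are rational.

* `v x > 1` is impossible: the kernel of reduction has no `p`-torsion (landed `S05.C1b`).
* `v x < 1` is impossible: by the component homomorphism at the node (landed `S13.Comp2`),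
  `v x ^ p = v a₄ ^ (2 j)` and `v a₄ < v x`, whereas `v x = v 2 ^ c`, `v a₄ = v 2 ^ (k p - 4)`
  and `p ∤ 2 (k p - 4)`.
* so `v x = 1` for `Q` and for `2 Q`: both reduce to one of the two affine `𝔽₂`-points
  `(1, 0)`, `(1, 1)`.  If the reductions agree, `Q - 2 Q` lies in the kernel of reduction
  (landed `S05.SameRed`), so `Q = 0`; otherwise `2 Q` reduces like `- Q` and `3 Q = 0`.
-/

set_option autoImplicit false

namespace Fermat.Agent.S13.H187

open WeierstrassCurve WeierstrassCurve.Affine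
open Fermat.Agent.S05 Fermat.Agent.S05.SameRed
open Fermat.Agent.S13.H129 Fermat.Agent.S13.Comp2

/-! ### Arithmetic -/

/-- the numerical heart: `p ∤ 2 (k p - 4)`. -/
lemma arith_aux {p k j : ℕ} {c : ℤ} (hp : p.Prime) (hp5 : 5 ≤ p)
    (h : c * p = ((k * p - 4 : ℕ) : ℤ) * ((2 * j : ℕ) : ℤ)) (h0 : 0 < c)
    (h1 : c < ((k * p - 4 : ℕ) : ℤ)) : False := by
  obtain ⟨c', rfl⟩ := Int.eq_ofNat_of_zero_le h0.le
  have h0' : 0 < c' := by exact_mod_cast h0
  have h1' : c' < k * p - 4 := by exact_mod_cast h1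
  have h' : c' * p = (k * p - 4) * (2 * j) := by exact_mod_cast h
  have hM : k * p - 4 + 4 = k * p := by omega
  have hdvd : p ∣ (k * p - 4) * (2 * j) := ⟨c', by rw [← h']; ring⟩
  have hnM : ¬ p ∣ k * p - 4 := by
    intro hd
    have h4 : p ∣ 4 := by
      have h5 : p ∣ k * p - 4 + 4 := by rw [hM]; exact Dvd.intro_left k rfl
      exact (Nat.dvd_add_right hd).mp h5
    have := Nat.le_of_dvd (by norm_num) h4
    omega
  have hn2 : ¬ p ∣ 2 := by
    intro hd
    have := Nat.le_of_dvd (by norm_num) hd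
    omega
  rcases hp.dvd_mul.mp hdvd with hd | hd
  · exact hnM hd
  · rcases hp.dvd_mul.mp hd with hd | hd
    · exact hn2 hd
    · obtain ⟨j', rfl⟩ := hd
      have hc : c' = (k * p - 4) * (2 * j') := by
        have : c' * p = ((k * p - 4) * (2 * j')) * p := by rw [h']; ring
        exact Nat.eq_of_mul_eq_mul_right hp.pos this
      rcases Nat.eq_zero_or_pos j' with hj | hj
      · rw [hj] at hc
        omega
      · have : (k * p - 4) * 1 ≤ (k * p - 4) * (2 * j') :=
          Nat.mul_le_mul_left _ (by omega)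
        omega

/-! ### The Frey curve at `2` -/

section frey

variable (P : FreyPackage) {K : Type*} [Field K] [DecidableEq K] [Algebra ℚ K]

/-- `b = ± 2 ^ k * m` with `m` odd and `k ≥ 1`. -/
lemma frey_b_two_pow : ∃ k m : ℕ, 1 ≤ k ∧ Odd m ∧ P.b.natAbs = 2 ^ k * m := by
  obtain ⟨k, m, hm, hkm⟩ := Nat.exists_eq_two_pow_mul_odd (Int.natAbs_ne_zero.mpr P.hb0)
  refine ⟨k, m, ?_, hm, hkm⟩
  rcases Nat.eq_zero_or_pos k with hk | hk
  · exfalso
    rw [hk, pow_zero, one_mul] at hkm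
    have h2 : (2 : ℤ) ∣ P.b := (ZMod.intCast_zmod_eq_zero_iff_dvd P.b 2).1 P.hb2
    have h3 : 2 ∣ P.b.natAbs := by
      have := Int.natAbs_dvd_natAbs.mpr h2
      simpa using this
    rw [hkm] at h3
    exact (Nat.not_even_iff_odd.mpr hm) (even_iff_two_dvd.mpr h3)
  · exact hk

lemma frey_a_odd : Odd P.a := by
  have h : ((P.a - 3 : ℤ) : ZMod 4) = 0 := by
    push_cast
    rw [P.ha4]
    ring
  obtain ⟨k, hk⟩ := (ZMod.intCast_zmod_eq_zero_iff_dvd _ 4).1 h
  exact ⟨2 * k + 1, by push_cast at hk; linarith⟩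

omit [DecidableEq K] in
/-- the exact `2`-adic valuation of `a₄`: `v a₄ = v 2 ^ (k p - 4)` with `k ≥ 1`. -/
lemma frey_val_a₄ (A : ValuationSubring K) (hA : A.LiesOverPrime 2) :
    ∃ k : ℕ, 1 ≤ k ∧
      A.valuation (P.freyCurve⁄K).a₄ = A.valuation (2 : K) ^ (k * P.p - 4) := by
  have hchar : CharZero K := algebraRat.charZero K
  obtain ⟨k, m, hk, hm, hkm⟩ := frey_b_two_pow P
  refine ⟨k, hk, ?_⟩
  have hp5 := P.hp5
  have hkp : 4 ≤ k * P.p := by nlinarith
  have hva : A.valuation ((P.a : ℤ) : K) = 1 := val_int_of_odd hA (frey_a_odd P)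
  have hvm : A.valuation ((m : ℤ) : K) = 1 := val_int_of_odd hA (by exact_mod_cast hm)
  have hvb : A.valuation ((P.b : ℤ) : K) = A.valuation (2 : K) ^ k := by
    have h1 : A.valuation ((P.b.natAbs : ℤ) : K) = A.valuation (2 : K) ^ k := by
      rw [hkm]
      push_cast at hvm ⊢
      rw [map_mul, map_pow, hvm, mul_one]
    rcases Int.natAbs_eq P.b with h | h
    · rw [← h1]
      conv_lhs => rw [h]
    · rw [← h1]
      conv_lhs => rw [h]
      rw [Int.cast_neg, Valuation.map_neg]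
  have h16 : A.valuation (16 : K) = A.valuation (2 : K) ^ 4 := by
    rw [← map_pow]; norm_num
  have ha4 : (P.freyCurve⁄K).a₄ =
      -(((P.a : ℤ) : K) ^ P.p) * (((P.b : ℤ) : K) ^ P.p) / 16 := by
    simp [WeierstrassCurve.baseChange, FreyPackage.freyCurve]
  have h20 : A.valuation (2 : K) ≠ 0 := val_two_ne_zero'
  rw [ha4, map_div₀, map_mul, Valuation.map_neg, map_pow, map_pow, hva, one_pow, one_mul, hvb,
    h16, ← pow_mul]
  rw [div_eq_iff (pow_ne_zero _ h20), ← pow_add]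
  congr 1
  omega

variable [IsAlgClosed K]

/-- A `p`-torsion point of the Frey curve with rational `x`-coordinate has `v x = 1` at every
place over `2`. -/
theorem frey_val_x_eq_one (A : ValuationSubring K) (hA : A.LiesOverPrime 2) {r : ℚ} {y : K}
    (h : (P.freyCurve⁄K).Nonsingular ((r : ℚ) : K) y)
    (hP : P.p • Point.some _ _ h = 0) :
    A.valuation ((r : ℚ) : K) = 1 ∧ A.valuation y ≤ 1 := by
  have hchar : CharZero K := algebraRat.charZero K
  have hN := frey_nodeTwo P A hA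
  have hp := frey_val_p P A hA
  obtain ⟨hx, hy⟩ := C1b.val_x_le_one_of_nsmul_eq_zero hN.int hp h hP
  refine ⟨?_, hy⟩
  rcases lt_or_eq_of_le hx with hlt | heq
  · exfalso
    obtain ⟨M⟩ := exists_nodeModel2 (v := A.valuation) (P.freyCurve⁄K) hN.a₃ hN.a₆ hN.val_b₂
      hN.a₄ hN.a₄_ne
    obtain ⟨hlo, j, hj⟩ := M.torsion_near_node P.hp_odd h hP hlt
    have hr0 : r ≠ 0 := by
      rintro rfl
      rw [Rat.cast_zero, map_zero] at hlo
      exact not_lt_zero hlo
    obtain ⟨c, hc⟩ := val_rat_eq_zpow (K := K) hA hr0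
    obtain ⟨k, hk, hk4⟩ := frey_val_a₄ (K := K) P A hA
    have hg0 : 0 < A.valuation (2 : K) := val_two_pos
    have hg1 : A.valuation (2 : K) < 1 := val_two_lt_one hA
    rw [hc, hk4] at hj hlo
    rw [hc] at hlt
    have e1 : c * (P.p : ℤ) = ((k * P.p - 4 : ℕ) : ℤ) * ((2 * j : ℕ) : ℤ) := by
      apply zpow_right_injective₀ hg0 hg1.ne
      show A.valuation (2 : K) ^ (c * (P.p : ℤ)) =
        A.valuation (2 : K) ^ (((k * P.p - 4 : ℕ) : ℤ) * ((2 * j : ℕ) : ℤ))
      rw [zpow_mul, zpow_natCast, hj, zpow_mul, zpow_natCast, zpow_natCast]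
    have e2 : c < ((k * P.p - 4 : ℕ) : ℤ) := by
      rw [← zpow_natCast] at hlo
      exact (zpow_lt_zpow_iff_right_of_lt_one₀ hg0 hg1).mp hlo
    have e3 : 0 < c := by
      rw [← zpow_zero (A.valuation (2 : K))] at hlt
      exact (zpow_lt_zpow_iff_right_of_lt_one₀ hg0 hg1).mp hlt
    exact arith_aux P.pp P.hp5 e1 e3 e2
  · exact heq

/-- **Key step.** There are no two points `Q`, `2 Q` of order `p` with rational coordinates. -/
theorem frey_no_rational_pair (A : ValuationSubring K) (hA : A.LiesOverPrime 2)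
    {r₁ s₁ r₂ s₂ : ℚ}
    (h₁ : (P.freyCurve⁄K).Nonsingular ((r₁ : ℚ) : K) ((s₁ : ℚ) : K))
    (h₂ : (P.freyCurve⁄K).Nonsingular ((r₂ : ℚ) : K) ((s₂ : ℚ) : K))
    (hP : P.p • Point.some _ _ h₁ = 0)
    (h2 : Point.some _ _ h₁ + Point.some _ _ h₁ = Point.some _ _ h₂) : False := by
  have hchar : CharZero K := algebraRat.charZero K
  have hN := frey_nodeTwo P A hA
  have hp := frey_val_p P A hA
  have hv2 := val_two_lt_one hA
  set Q : (P.freyCurve⁄K).Point := Point.some _ _ h₁ with hQ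
  set R : (P.freyCurve⁄K).Point := Point.some _ _ h₂ with hR
  have hQ0 : Q ≠ 0 := by rw [hQ]; exact fun h => by cases h
  have hPR : P.p • R = 0 := by
    rw [← h2, smul_add, hP, add_zero]
  obtain ⟨hx₁, hy₁⟩ := frey_val_x_eq_one P A hA h₁ hP
  obtain ⟨hx₂, hy₂⟩ := frey_val_x_eq_one P A hA h₂ hPR
  have hx₁' := val_rat_sub_one_of_eq_one hA hx₁
  have hx₂' := val_rat_sub_one_of_eq_one hA hx₂
  have hxx : A.valuation (((r₁ : ℚ) : K) - ((r₂ : ℚ) : K)) < 1 := by
    have e : ((r₁ : ℚ) : K) - ((r₂ : ℚ) : K) = (((r₁ : ℚ) : K) - 1) - (((r₂ : ℚ) : K) - 1) := by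
      ring
    rw [e]
    exact lt_of_le_of_lt (Valuation.map_sub _ _ _) (max_lt hx₁' hx₂')
  -- nonsingularity of the reduction of a point with unit `x`
  have hns : ∀ {x y : K}, A.valuation x = 1 → A.valuation y ≤ 1 →
      A.valuation (2 * y + (P.freyCurve⁄K).a₁ * x + (P.freyCurve⁄K).a₃) = 1 := by
    intro x y hx hy
    rw [hN.a₃, add_zero]
    have h1 : A.valuation ((P.freyCurve⁄K).a₁ * x) = 1 := by rw [map_mul, hN.a₁, hx, one_mul]
    have h2 : A.valuation (2 * y) < 1 := val_mul_lt_one_left hN.two hy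
    rw [(A.valuation).map_add_eq_of_lt_right (by rw [h1]; exact h2), h1]
  rcases val_rat_sub_or hA hy₁ hy₂ with hyy | hyy
  · -- same reduction: `Q - 2Q` is in the kernel of reduction
    have hker : InKer (P.freyCurve⁄K) A.valuation (Q - R) :=
      inKer_sub_of_same_reduction hN.int h₁ h₂ hx₁.le hy₁ hx₂.le hy₂ hxx hyy
        (Or.inr (hns hx₁ hy₁))
    have hz : Q - R = 0 :=
      C1b.eq_zero_of_inKer_of_nsmul_eq_zero hN.int P.p hp _ hker
        (by rw [smul_sub, hP, hPR, sub_zero])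
    apply hQ0
    have : Q = Q + Q := by rw [h2]; exact sub_eq_zero.mp hz
    exact (add_eq_left.mp this.symm)
  · -- `2Q` reduces like `-Q`: `3Q` is in the kernel of reduction
    have hneg : -Q = Point.some _ _ ((nonsingular_neg ..).mpr h₁) := by
      rw [hQ, Point.neg_some]
    have hy₁n : A.valuation ((P.freyCurve⁄K).negY ((r₁ : ℚ) : K) ((s₁ : ℚ) : K)) ≤ 1 := by
      simp only [Affine.negY]
      rw [hN.a₃, sub_zero]
      apply val_sub_le_one
      · rw [Valuation.map_neg]; exact hy₁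
      · rw [map_mul, hN.a₁, one_mul]; exact hx₁.le
    have hyn : A.valuation (((s₂ : ℚ) : K) -
        (P.freyCurve⁄K).negY ((r₁ : ℚ) : K) ((s₁ : ℚ) : K)) < 1 := by
      have ha1 : (P.freyCurve⁄K).a₁ = 1 := frey_a₁ P
      have e : ((s₂ : ℚ) : K) - (P.freyCurve⁄K).negY ((r₁ : ℚ) : K) ((s₁ : ℚ) : K) =
          (((s₁ : ℚ) : K) + ((s₂ : ℚ) : K) - 1) + ((((r₁ : ℚ) : K) - 1) + 2) := by
        simp only [Affine.negY]
        rw [hN.a₃, ha1]
        ring
      rw [e]
      exact val_add_lt_one hyy (val_add_lt_one hx₁' hv2)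
    have hxx' : A.valuation (((r₂ : ℚ) : K) - ((r₁ : ℚ) : K)) < 1 := by
      rw [← Valuation.map_neg, neg_sub]; exact hxx
    have hker : InKer (P.freyCurve⁄K) A.valuation (R - -Q) := by
      rw [hneg]
      exact inKer_sub_of_same_reduction hN.int h₂ _ hx₂.le hy₂ hx₁.le hy₁n hxx' hyn
        (Or.inr (hns hx₂ hy₂))
    have hz : R - -Q = 0 :=
      C1b.eq_zero_of_inKer_of_nsmul_eq_zero hN.int P.p hp _ hker
        (by rw [smul_sub, smul_neg, hP, hPR, neg_zero, sub_zero])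
    have h3 : 3 • Q = 0 := by
      have : 3 • Q = R - -Q := by
        rw [← h2, sub_neg_eq_add]
        rw [show (3 : ℕ) = 2 + 1 from rfl, add_smul, two_smul, one_smul]
      rw [this, hz]
    apply hQ0
    have hd1 : addOrderOf Q ∣ 3 := addOrderOf_dvd_of_nsmul_eq_zero h3
    have hd2 : addOrderOf Q ∣ P.p := addOrderOf_dvd_of_nsmul_eq_zero hP
    have hcop : Nat.Coprime 3 P.p := by
      rw [Nat.coprime_primes Nat.prime_three P.pp]
      have := P.hp5
      omega
    have : addOrderOf Q = 1 := Nat.eq_one_of_dvd_coprimes hcop hd1 hd2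
    exact AddMonoid.addOrderOf_eq_one_iff.mp this

end frey

end Fermat.Agent.S13.H187

namespace Fermat.Agent.S13.H187

open WeierstrassCurve WeierstrassCurve.Affine WeierstrassCurve.Affine.Point
open Fermat.Agent.S13.H129

section Qbar

/-- An element of `ℚ̄` fixed by the whole Galois group is rational. -/
lemma exists_ratCast_of_fixed (z : AlgebraicClosure ℚ)
    (hz : ∀ σ : AlgebraicClosure ℚ ≃ₐ[ℚ] AlgebraicClosure ℚ, σ z = z) :
    ∃ r : ℚ, ((r : ℚ) : AlgebraicClosure ℚ) = z := by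
  have := Fermat.Agent.S54.isGalois_algebraicClosure_rat
  obtain ⟨r, hr⟩ :=
    (InfiniteGalois.mem_range_algebraMap_iff_fixed (k := ℚ) (K := AlgebraicClosure ℚ) z).mpr hz
  exact ⟨r, by rw [← hr, eq_ratCast]⟩

lemma smul_some_eq (P : FreyPackage)
    (σ : AlgebraicClosure ℚ ≃ₐ[ℚ] AlgebraicClosure ℚ) {x y : AlgebraicClosure ℚ}
    (h : (P.freyCurve⁄(AlgebraicClosure ℚ)).Nonsingular x y) :
    σ • (Point.some x y h : (P.freyCurve⁄(AlgebraicClosure ℚ)).Point) =
      Point.some (σ x) (σ y)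
        ((Affine.baseChange_nonsingular P.freyCurve (f := σ.toAlgHom) σ.injective x y).mpr h) :=
  rfl

/-- the coordinates of a Galois-fixed affine point are rational. -/
lemma exists_rat_coords (P : FreyPackage) {x y : AlgebraicClosure ℚ}
    (h : (P.freyCurve⁄(AlgebraicClosure ℚ)).Nonsingular x y)
    (hfix : ∀ σ : AlgebraicClosure ℚ ≃ₐ[ℚ] AlgebraicClosure ℚ,
      σ • (Point.some x y h : (P.freyCurve⁄(AlgebraicClosure ℚ)).Point) = Point.some x y h) :
    ∃ r s : ℚ, ((r : ℚ) : AlgebraicClosure ℚ) = x ∧ ((s : ℚ) : AlgebraicClosure ℚ) = y := by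
  have hx : ∀ σ : AlgebraicClosure ℚ ≃ₐ[ℚ] AlgebraicClosure ℚ, σ x = x := fun σ => by
    have := hfix σ
    rw [smul_some_eq] at this
    exact (Point.some.inj this).1
  have hy : ∀ σ : AlgebraicClosure ℚ ≃ₐ[ℚ] AlgebraicClosure ℚ, σ y = y := fun σ => by
    have := hfix σ
    rw [smul_some_eq] at this
    exact (Point.some.inj this).2
  obtain ⟨r, hr⟩ := exists_ratCast_of_fixed x hx
  obtain ⟨s, hs⟩ := exists_ratCast_of_fixed y hy
  exact ⟨r, s, hr, hs⟩

/-- **S13 / T7**, in the frozen interface shape (hypothesis `hT7` of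
`Fermat.Agent.S13.Skel.result_of_parts`): the Frey curve has no nonzero Galois-fixed point of
order `p`. -/
theorem T7 (P : FreyPackage) (x : Skel.Vp P) (hx : ∀ σ : Skel.GQ, σ • x = x) : x = 0 := by
  obtain ⟨A, hA⟩ := Fermat.Agent.S54.exists_valuationSubring_liesOver 2 Nat.prime_two
  by_contra hne
  have hfix : ∀ σ : Skel.GQ, σ • (x : (P.freyCurve⁄(AlgebraicClosure ℚ)).Point) = x :=
    fun σ => congrArg Subtype.val (hx σ)
  have hx0 : P.p • (x : (P.freyCurve⁄(AlgebraicClosure ℚ)).Point) = 0 := by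
    have := (Submodule.mem_torsionBy_iff _ _).mp x.2
    rwa [natCast_zsmul] at this
  have hQne : (x : (P.freyCurve⁄(AlgebraicClosure ℚ)).Point) ≠ 0 := fun h => hne (Subtype.ext h)
  generalize (x : (P.freyCurve⁄(AlgebraicClosure ℚ)).Point) = Q at hfix hx0 hQne
  rcases Q with _ | ⟨x₁, y₁, h₁⟩
  · exact hQne rfl
  have h2ne : Point.some x₁ y₁ h₁ + Point.some x₁ y₁ h₁ ≠ 0 :=
    add_self_ne_zero_of_odd P.hp_odd hx0 hQne
  have h2fix : ∀ σ : Skel.GQ, σ • (Point.some x₁ y₁ h₁ + Point.some x₁ y₁ h₁) =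
      Point.some x₁ y₁ h₁ + Point.some x₁ y₁ h₁ := by
    intro σ
    have e : σ • (Point.some x₁ y₁ h₁ + Point.some x₁ y₁ h₁) =
        σ • Point.some x₁ y₁ h₁ + σ • Point.some x₁ y₁ h₁ :=
      smul_add (M := Skel.GQ) (A := (P.freyCurve⁄(AlgebraicClosure ℚ)).Point) σ _ _
    rw [e, hfix σ]
  obtain ⟨r₁, s₁, rfl, rfl⟩ := exists_rat_coords P h₁ hfix
  rcases hR : Point.some _ _ h₁ + Point.some _ _ h₁ with _ | ⟨x₂, y₂, h₂⟩
  · exact h2ne hR
  rw [hR] at h2fix
  obtain ⟨r₂, s₂, rfl, rfl⟩ := exists_rat_coords P h₂ h2fix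
  exact frey_no_rational_pair P A hA h₁ h₂ hx0 hR

end Qbar

end Fermat.Agent.S13.H187
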